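import Fermat.Agent.Szemeredi.Main

/-!
# Consequences of Szemerédi's theorem: supersaturation and colourings
-/

namespace FA.MultipleRecurrence

open Finset Filter

/-- Varnavides for progressions of length `k + 2`. -/
theorem exists_many_progressions (k : ℕ) {δ : ℝ} (hδ : 0 < δ) :
    ∃ c > (0 : ℝ), ∃ N₁ : ℕ, ∀ N, N₁ ≤ N → ∀ A : Finset ℕ, A ⊆ range N → δ * N ≤ #A →
      c * (N : ℝ) ^ 2 ≤
        #(((range N) ×ˢ (Icc 1 N)).filter fun p ↦ ∀ i < k + 2, p.1 + i * p.2 ∈ A) := by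
  classical
  obtain ⟨M₀, hM₀⟩ := Szemeredi.exists_progression (k + 2) (half_pos hδ)
  set M := max M₀ 1 with hM
  have hM1 : 1 ≤ M := le_max_right _ _
  refine ⟨δ / 4 * (1 / (4 * M)) / (M * M), by positivity, 4 * M, fun N hN A hA hδA ↦ ?_⟩
  set D := N / (2 * M) with hD
  set P := ((range N) ×ˢ (Icc 1 N)).filter fun p ↦ ∀ i < k + 2, p.1 + i * p.2 ∈ A
  -- the windows `a, a + d, …, a + (M - 1) d` in which `A` is dense
  let J : ℤ → ℕ → Finset ℕ := fun a d ↦ (range M).filter fun j ↦ ∃ b ∈ A, (b : ℤ) = a + j * d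
  let W : Finset ℤ := Ico (-(M * D : ℕ) : ℤ) N
  let G : Finset (ℤ × ℕ) := (W ×ˢ Icc 1 D).filter fun q ↦ δ / 2 * M ≤ #(J q.1 q.2)
  have hrow : ∀ d ∈ Icc 1 D, δ / 4 * N ≤ (#(W.filter fun a ↦ δ / 2 * M ≤ #(J a d)) : ℝ) := by
    intro d hd
    obtain ⟨hd1, hd2⟩ := Finset.mem_Icc.1 hd
    have hswap : ∑ a ∈ W, (#(J a d) : ℝ) = M * #A := by
      simp only [J, natCast_card_filter]
      rw [sum_comm]
      have hcol : ∀ j ∈ range M, (∑ a ∈ W, if ∃ b ∈ A, (b : ℤ) = a + j * d then (1 : ℝ) else 0) =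
          #A := by
        intro j hj
        rw [← natCast_card_filter]
        refine congrArg Nat.cast (card_bij (fun a _ ↦ (a + j * d).toNat) (fun a ha ↦ ?_)
          (fun a ha a' ha' h ↦ ?_) fun b hb ↦ ⟨(b : ℤ) - j * d, ?_, ?_⟩)
        · obtain ⟨b, hb, hb'⟩ := (mem_filter.1 ha).2
          rwa [← hb', Int.toNat_natCast]
        · obtain ⟨b, hb, hb'⟩ := (mem_filter.1 ha).2
          obtain ⟨b', -, hb''⟩ := (mem_filter.1 ha').2
          rw [← hb', ← hb'', Int.toNat_natCast, Int.toNat_natCast] at h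
          omega
        · have h1 : j * d ≤ M * D := Nat.mul_le_mul (mem_range.1 hj).le hd2
          have h2 := mem_range.1 (hA hb)
          refine mem_filter.2 ⟨Finset.mem_Ico.2 ⟨?_, ?_⟩, b, hb, by ring⟩
          · have h3 : ((j : ℤ) * d) ≤ (M * D : ℕ) := by exact_mod_cast h1
            omega
          · have h3 : (0 : ℤ) ≤ (j : ℤ) * d := by positivity
            omega
        · simp
      rw [sum_congr rfl hcol, sum_const, card_range, nsmul_eq_mul]
    have hW : (#W : ℝ) ≤ 3 / 2 * N := by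
      have h1 : 2 * (M * D) ≤ N := by
        rw [← mul_assoc, mul_comm]
        exact Nat.div_mul_le_self N (2 * M)
      have h2 : #W = N + M * D := by
        simp only [W, Int.card_Ico]
        omega
      rw [h2]
      have : (2 : ℝ) * (M * D : ℕ) ≤ N := by exact_mod_cast h1
      push_cast at this ⊢
      linarith
    set q : ℤ → Prop := fun a ↦ δ / 2 * M ≤ #(J a d)
    have key : ∑ a ∈ W, (#(J a d) : ℝ) ≤ δ / 2 * M * #W + M * #(W.filter q) := by
      have h1 : ∀ a ∈ W, (#(J a d) : ℝ) ≤ δ / 2 * M + if q a then (M : ℝ) else 0 := by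
        intro a _
        split_ifs with h
        · have h2 : (#(J a d) : ℝ) ≤ M := by
            exact_mod_cast (card_filter_le _ _).trans_eq (card_range M)
          have : 0 ≤ δ / 2 * (M : ℝ) := by positivity
          linarith
        · exact (not_le.1 h).le.trans (by simp)
      refine (sum_le_sum h1).trans (le_of_eq ?_)
      rw [sum_add_distrib, sum_const, ← sum_filter, sum_const, nsmul_eq_mul, nsmul_eq_mul]
      ring
    rw [hswap] at key
    have hMpos : (0 : ℝ) < M := by exact_mod_cast hM1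
    have h3 : δ / 2 * M * #W ≤ δ / 2 * M * (3 / 2 * N) := by gcongr
    refine le_of_mul_le_mul_left ?_ hMpos
    have h4 : (M : ℝ) * (δ * N) ≤ M * #A := by gcongr
    linarith
  have hG : (D : ℝ) * (δ / 4 * N) ≤ #G := by
    calc (D : ℝ) * (δ / 4 * N) = ∑ _d ∈ Icc 1 D, δ / 4 * N := by simp
      _ ≤ ∑ d ∈ Icc 1 D, (#(W.filter fun a ↦ δ / 2 * M ≤ #(J a d)) : ℝ) := sum_le_sum hrow
      _ = _ := by
        simp only [G, natCast_card_filter]
        rw [sum_product, sum_comm]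
  -- each dense window gives a progression, from which few windows can come
  have hprog : ∀ q ∈ G, ∃ u : (ℕ × ℕ) × (ℕ × ℕ), u ∈ P ×ˢ (range M ×ˢ range M) ∧
      (u.1.1 : ℤ) = q.1 + u.2.1 * q.2 ∧ u.1.2 = u.2.2 * q.2 := by
    intro q hq
    obtain ⟨hqW, hqJ⟩ := mem_filter.1 hq
    obtain ⟨hd1, hd2⟩ := Finset.mem_Icc.1 (mem_product.1 hqW).2
    obtain ⟨i₀, e, he, hi⟩ := hM₀ M (le_max_left _ _) (J q.1 q.2) (filter_subset _ _) hqJ
    have hi1 := mem_range.1 (mem_filter.1 (hi 1 (by omega))).1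
    obtain ⟨b, hb, hb'⟩ := (mem_filter.1 (hi 0 (by omega))).2
    have hmem : ∀ i < k + 2, b + i * (e * q.2) ∈ A := by
      intro i hik
      obtain ⟨b', hbA, hb''⟩ := (mem_filter.1 (hi i hik)).2
      convert hbA using 1
      zify
      rw [hb', hb'']
      push_cast
      ring
    refine ⟨((b, e * q.2), (i₀, e)), ?_, by simpa using hb', rfl⟩
    simp only [mem_product, P, mem_filter, mem_range, Finset.mem_Icc]
    have heD : e * q.2 ≤ M * D := Nat.mul_le_mul (by omega) hd2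
    have hMD : M * D ≤ N := by
      refine le_trans ?_ (Nat.div_mul_le_self N (2 * M))
      rw [hD, mul_comm M]
      exact Nat.mul_le_mul le_rfl (by omega)
    exact ⟨⟨⟨mem_range.1 (hA hb), Nat.mul_pos he hd1, le_trans heD hMD⟩, hmem⟩, by omega, by omega⟩
  choose! u hu using hprog
  have hinj : #G ≤ #(P ×ˢ (range M ×ˢ range M)) := by
    refine card_le_card_of_injOn u (fun q hq ↦ (hu q hq).1) fun q hq q' hq' heq ↦ ?_
    obtain ⟨h1, h2, h3⟩ := hu q hq
    obtain ⟨-, h2', h3'⟩ := hu q' hq'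
    rw [← heq] at h2' h3'
    have hpos : 0 < (u q).2.2 := by
      obtain ⟨hd1, -⟩ := Finset.mem_Icc.1 (mem_product.1 (mem_filter.1 hq).1).2
      have := (Finset.mem_Icc.1 (mem_product.1 (mem_filter.1 (mem_product.1 h1).1).1).2).1
      rw [h3] at this
      exact Nat.pos_of_ne_zero fun h ↦ by simp [h] at this
    have hd : q.2 = q'.2 := Nat.eq_of_mul_eq_mul_left hpos (h3.symm.trans h3')
    refine Prod.ext ?_ hd
    rw [← hd] at h2'
    linarith
  rw [card_product, card_product, card_range] at hinj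
  have hinjR : (#G : ℝ) ≤ #P * (M * M) := by exact_mod_cast hinj
  have hDN : (N : ℝ) * (1 / (4 * M)) ≤ D := by
    rw [← mul_div_assoc, mul_one, div_le_iff₀ (by positivity)]
    have h1 := Nat.div_add_mod N (2 * M)
    have h2 := Nat.mod_lt N (show 2 * M > 0 by omega)
    have h3 : N ≤ D * (4 * M) := by
      have h4 : N ≤ 2 * (2 * M * D) := by rw [hD]; omega
      linarith
    exact_mod_cast h3
  rw [div_mul_eq_mul_div, div_le_iff₀ (by positivity)]
  calc δ / 4 * (1 / (4 * M)) * (N : ℝ) ^ 2 = N * (1 / (4 * M)) * (δ / 4 * N) := by ring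
    _ ≤ D * (δ / 4 * N) := by gcongr
    _ ≤ #G := hG
    _ ≤ _ := hinjR

/-- Szemerédi's theorem for positive upper Banach density. -/
theorem exists_progression_of_banach (A : Set ℕ) [DecidablePred (· ∈ A)] {δ : ℝ} (hδ : 0 < δ)
    (h : ∀ N₀ : ℕ, ∃ N : ℕ, N₀ ≤ N ∧ ∃ m : ℕ,
      δ * (N : ℝ) ≤ #((Ico m (m + N)).filter (· ∈ A))) (k : ℕ) :
    ∃ a d : ℕ, 0 < d ∧ ∀ i < k, a + i * d ∈ A := by
  classical
  obtain ⟨N₀, hN₀⟩ := Szemeredi.exists_progression k hδ
  obtain ⟨N, hN, m, hm⟩ := h N₀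
  obtain ⟨a, d, hd, hap⟩ := hN₀ N hN ((range N).filter fun j ↦ m + j ∈ A) (filter_subset _ _) (by
    refine hm.trans (le_of_eq (congrArg Nat.cast (card_bij (fun x _ ↦ x - m) (fun x hx ↦ ?_)
      (fun x hx y hy hxy ↦ ?_) fun j hj ↦ ⟨m + j, ?_, by omega⟩)))
    · obtain ⟨hx1, hx2⟩ := mem_filter.1 hx
      rw [Finset.mem_Ico] at hx1
      exact mem_filter.2 ⟨mem_range.2 (by omega), by rwa [Nat.add_sub_cancel' hx1.1]⟩
    · have := (Finset.mem_Ico.1 (mem_filter.1 hx).1).1
      have := (Finset.mem_Ico.1 (mem_filter.1 hy).1).1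
      omega
    · obtain ⟨hj1, hj2⟩ := mem_filter.1 hj
      exact mem_filter.2 ⟨Finset.mem_Ico.2 ⟨by omega, by
        have := mem_range.1 hj1; omega⟩, hj2⟩)
  exact ⟨m + a, d, hd, fun i hi ↦ by simpa [add_assoc] using (mem_filter.1 (hap i hi)).2⟩

/-- One colour of a finite colouring of `ℤ ^ r` contains copies of every finite set. -/
theorem exists_universal_colour {κ : Type*} [Finite κ] (r : ℕ) (C : (Fin r → ℤ) → κ) :
    ∃ c, ∀ F : Finset (Fin r → ℤ), ∃ a : Fin r → ℤ, ∃ d : ℕ, 0 < d ∧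
      ∀ f ∈ F, C (a + d • f) = c := by
  classical
  cases nonempty_fintype κ
  have : Nonempty κ := ⟨C 0⟩
  by_contra hall
  push Not at hall
  choose F hF using hall
  obtain ⟨N₀, hN₀⟩ := Szemeredi.exists_homothetic_in_box r (univ.biUnion F)
    (show (0 : ℝ) < 1 / Fintype.card κ by positivity)
  set B : Finset (Fin r → ℤ) := Fintype.piFinset fun _ ↦ Ico (0 : ℤ) N₀
  obtain ⟨c, -, hc⟩ := exists_le_of_sum_le (s := (univ : Finset κ)) univ_nonempty
    (f := fun _ ↦ (#B : ℝ) / Fintype.card κ) (g := fun c ↦ (#(B.filter fun v ↦ C v = c) : ℝ)) (by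
      rw [sum_const, card_univ, nsmul_eq_mul, mul_div_cancel₀ _
        (by exact_mod_cast Fintype.card_ne_zero (α := κ)),
        card_eq_sum_card_fiberwise (f := C) (t := univ) fun x _ ↦ mem_univ (C x)]
      push_cast
      rfl)
  obtain ⟨a, d, hd, hcopy⟩ := hN₀ N₀ le_rfl (B.filter fun v ↦ C v = c)
    (fun v hv i ↦ Finset.mem_Ico.1 (Fintype.mem_piFinset.1 (mem_filter.1 hv).1 i)) (by
      refine le_trans (le_of_eq ?_) hc
      simp [B]
      ring)
  obtain ⟨f, hf, hne⟩ := hF c a d hd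
  exact hne (mem_filter.1 (hcopy f (mem_biUnion.2 ⟨c, mem_univ c, hf⟩))).2

end FA.MultipleRecurrence
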