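import Mathlib.Dynamics.Ergodic.MeasurePreserving
import Mathlib.Data.Fin.Tuple.Basic
import Mathlib.Algebra.Notation.Pi.Basic

/-!
# Products of powers of commuting maps
-/

namespace FA.MultipleRecurrence

open MeasureTheory Function

variable {α : Type*}

/-- The map `T 0 ^[v 0] ∘ T 1 ^[v 1] ∘ …`. -/
def orbitMap : (r : ℕ) → (Fin r → α → α) → (Fin r → ℕ) → α → α
  | 0, _, _ => id
  | r + 1, T, v => (T 0)^[v 0] ∘ orbitMap r (Fin.tail T) (Fin.tail v)

lemma measurePreserving_orbitMap [MeasurableSpace α] {μ : Measure α} :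
    ∀ (r : ℕ) (T : Fin r → α → α), (∀ i, MeasurePreserving (T i) μ μ) → ∀ v,
      MeasurePreserving (orbitMap r T v) μ μ
  | 0, _, _, _ => MeasurePreserving.id μ
  | r + 1, T, hT, v => ((hT 0).iterate (v 0)).comp
      (measurePreserving_orbitMap r (Fin.tail T) (fun i ↦ hT i.succ) (Fin.tail v))

lemma orbitMap_add_single :
    ∀ (r : ℕ) (T : Fin r → α → α), (∀ i j, Function.Commute (T i) (T j)) → ∀ v i d x,
      orbitMap r T (v + Pi.single i d) x = (T i)^[d] (orbitMap r T v x)
  | 0, _, _, _, i, _, _ => i.elim0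
  | r + 1, T, hT, v, i, d, x => by
    refine Fin.cases ?_ (fun i ↦ ?_) i
    · have ht : Fin.tail (v + Pi.single (0 : Fin (r + 1)) d) = Fin.tail v := by
        funext j; simp [Fin.tail, Fin.succ_ne_zero]
      simp only [orbitMap, comp_apply, ht, Pi.add_apply, Pi.single_eq_same]
      rw [Nat.add_comm (v 0) d, iterate_add_apply]
    · have ht : Fin.tail (v + Pi.single i.succ d) = Fin.tail v + Pi.single i d := by
        funext j; simp [Fin.tail, Pi.single_apply]
      have h0 : (v + Pi.single i.succ d : Fin (r + 1) → ℕ) 0 = v 0 := by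
        simp [(Fin.succ_ne_zero i).symm]
      simp only [orbitMap, comp_apply, ht, h0]
      rw [orbitMap_add_single r (Fin.tail T) (fun a b ↦ hT _ _)]
      exact (((hT 0 i.succ).iterate_left (v 0)).iterate_right d).eq _

end FA.MultipleRecurrence
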