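import Fermat.Agent.MultipleRecurrence.Orbit
import Fermat.Agent.Szemeredi.Main
import Mathlib.MeasureTheory.Integral.Bochner.Set
import Mathlib.MeasureTheory.Measure.Typeclasses.Probability

/-!
# Multiple recurrence for commuting measure-preserving maps

Furstenberg's correspondence read backwards: the multidimensional Szemerédi theorem, applied to
the return sets of orbits, bounds the measures of multiple intersections from below.
-/

namespace FA.MultipleRecurrence

open MeasureTheory Function Finset Filter Topology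

universe u

theorem exists_sum_recurrence (r : ℕ) {δ : ℝ} (hδ : 0 < δ) :
    ∃ D : ℕ, ∃ c > (0 : ℝ), 1 ≤ D ∧ ∀ (α : Type u) [MeasurableSpace α] (μ : Measure α)
      [IsProbabilityMeasure μ] (T : Fin r → α → α), (∀ i, MeasurePreserving (T i) μ μ) →
      (∀ i j, Function.Commute (T i) (T j)) → ∀ A : Set α, MeasurableSet A → δ ≤ μ.real A →
      c ≤ ∑ d ∈ Icc 1 D, μ.real (A ∩ ⋂ i, (T i)^[d] ⁻¹' A) := by
  classical
  obtain ⟨N₀, hN₀⟩ := Szemeredi.exists_corner r (half_pos hδ)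
  set N := max N₀ 1 with hN
  have hN1 : 1 ≤ N := le_max_right _ _
  have hNR : (0 : ℝ) < (N : ℝ) ^ r := by positivity
  refine ⟨N, δ / 2 / (N : ℝ) ^ r, by positivity, hN1, fun α _ μ _ T hT hcomm A hA hδA ↦ ?_⟩
  let S : (Fin r → Fin N) → α → α := fun v ↦ orbitMap r T fun j ↦ (v j : ℕ)
  have hS : ∀ v, MeasurePreserving (S v) μ μ := fun v ↦ measurePreserving_orbitMap r T hT _
  let B : ℕ → Set α := fun d ↦ A ∩ ⋂ i, (T i)^[d] ⁻¹' A
  have hB : ∀ d, MeasurableSet (B d) := fun d ↦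
    hA.inter (MeasurableSet.iInter fun i ↦ ((hT i).iterate d).measurable hA)
  let U : Set α := ⋃ d ∈ Icc 1 N, ⋃ v, S v ⁻¹' B d
  have hU : MeasurableSet U := Finset.measurableSet_biUnion _ fun d _ ↦
    MeasurableSet.iUnion fun v ↦ (hS v).measurable (hB d)
  let g : α → ℝ := fun x ↦ ∑ v, (S v ⁻¹' A).indicator (fun _ ↦ (1 : ℝ)) x
  have hint : ∀ v, Integrable ((S v ⁻¹' A).indicator fun _ ↦ (1 : ℝ)) μ := fun v ↦
    (integrable_const (1 : ℝ)).indicator ((hS v).measurable hA)
  have hg : ∫ x, g x ∂μ = (N : ℝ) ^ r * μ.real A := by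
    rw [integral_finsetSum _ fun v _ ↦ hint v, sum_congr rfl fun v _ ↦
      (integral_indicator_const (1 : ℝ) ((hS v).measurable hA)).trans (by
        rw [smul_eq_mul, mul_one, measureReal_def,
          (hS v).measure_preimage hA.nullMeasurableSet, ← measureReal_def])]
    simp
  have hle : ∀ x, g x ≤ (N : ℝ) ^ r * U.indicator (fun _ ↦ (1 : ℝ)) x + δ / 2 * (N : ℝ) ^ r := by
    intro x
    have hgx : g x = (#{v | S v x ∈ A} : ℝ) := by
      rw [natCast_card_filter]
      simp [g, Set.indicator_apply]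
    by_cases hx : x ∈ U
    · rw [Set.indicator_of_mem hx, mul_one, hgx]
      have h1 : (#{v | S v x ∈ A} : ℝ) ≤ (N : ℝ) ^ r := by
        refine (Nat.cast_le.2 (card_le_univ _)).trans ?_
        simp
      have h2 : 0 ≤ δ / 2 * (N : ℝ) ^ r := by positivity
      linarith
    · rw [Set.indicator_of_notMem hx, mul_zero, zero_add, hgx]
      by_contra hlt
      rw [not_le] at hlt
      let emb : (Fin r → Fin N) → (Fin r → ℤ) := fun v j ↦ ((v j : ℕ) : ℤ)
      have hemb : Injective emb := fun v w h ↦ funext fun j ↦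
        Fin.ext (Int.ofNat_inj.1 (congrFun h j))
      obtain ⟨a, ha, d, hd, hcor⟩ := hN₀ N (le_max_left _ _)
        ((univ.filter fun v ↦ S v x ∈ A).image emb) (fun a ha i ↦ by
          obtain ⟨v, -, rfl⟩ := mem_image.1 ha
          exact ⟨Int.natCast_nonneg _, Int.ofNat_lt.2 (v i).isLt⟩)
        (by rw [card_image_of_injective _ hemb]; exact hlt.le)
      obtain ⟨v, hv, rfl⟩ := mem_image.1 ha
      refine hx ?_
      simp only [U, Set.mem_iUnion]
      refine ⟨min d N, Finset.mem_Icc.2 ⟨le_min hd hN1, min_le_right _ _⟩, v, ?_⟩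
      refine ⟨(mem_filter.1 hv).2, Set.mem_iInter.2 fun i ↦ ?_⟩
      obtain ⟨w, hw, hwv⟩ := mem_image.1 (hcor i)
      have hnat : (fun j ↦ (w j : ℕ)) = (fun j ↦ (v j : ℕ)) + Pi.single i d := by
        funext j
        have h := congrFun hwv j
        simp only [emb, Pi.add_apply, Pi.single_apply] at h ⊢
        split_ifs at h ⊢ <;> omega
      have hdN : d < N := by
        have h := congrFun hnat i
        simp only [Pi.add_apply, Pi.single_eq_same] at h
        have := (w i).isLt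
        omega
      rw [Set.mem_preimage, min_eq_left hdN.le, ← orbitMap_add_single r T hcomm, ← hnat]
      exact (mem_filter.1 hw).2
  have hIU : Integrable (fun x ↦ (N : ℝ) ^ r * U.indicator (fun _ ↦ (1 : ℝ)) x) μ :=
    ((integrable_const (1 : ℝ)).indicator hU).const_mul _
  have hmain : (N : ℝ) ^ r * μ.real A ≤ (N : ℝ) ^ r * μ.real U + δ / 2 * (N : ℝ) ^ r := by
    rw [← hg]
    refine (integral_mono (integrable_finsetSum _ fun v _ ↦ hint v)
      (hIU.add (integrable_const _)) hle).trans (le_of_eq ?_)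
    simp only [Pi.add_apply]
    rw [integral_add hIU (integrable_const _), integral_const_mul,
      integral_indicator_const _ hU, integral_const]
    simp
  have hUle : μ.real U ≤ (N : ℝ) ^ r * ∑ d ∈ Icc 1 N, μ.real (B d) := by
    refine (measureReal_biUnion_finset_le _ _).trans ?_
    rw [mul_sum]
    refine sum_le_sum fun d _ ↦ (measureReal_iUnion_fintype_le _).trans (le_of_eq ?_)
    rw [sum_congr rfl fun v _ ↦ by
      rw [measureReal_def, (hS v).measure_preimage (hB d).nullMeasurableSet, ← measureReal_def]]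
    simp
  rw [div_le_iff₀ hNR]
  have : δ / 2 ≤ μ.real U := by nlinarith
  calc δ / 2 ≤ μ.real U := this
    _ ≤ _ := hUle
    _ = _ := mul_comm _ _

/-- **Multiple recurrence of Furstenberg and Katznelson**, averaged and uniform. -/
theorem exists_average_recurrence (r : ℕ) {δ : ℝ} (hδ : 0 < δ) :
    ∃ c > (0 : ℝ), ∃ M₀ : ℕ, ∀ (α : Type u) [MeasurableSpace α] (μ : Measure α)
      [IsProbabilityMeasure μ] (T : Fin r → α → α), (∀ i, MeasurePreserving (T i) μ μ) →
      (∀ i j, Function.Commute (T i) (T j)) → ∀ A : Set α, MeasurableSet A → δ ≤ μ.real A →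
      ∀ M, M₀ ≤ M → c * M ≤ ∑ n ∈ range M, μ.real (A ∩ ⋂ i, (T i)^[n] ⁻¹' A) := by
  obtain ⟨D, c, hc, hD, h⟩ := exists_sum_recurrence.{u} r hδ
  refine ⟨c / (2 * (D : ℝ) ^ 2), by positivity, 2 * D + 2,
    fun α _ μ _ T hT hcomm A hA hδA M hM ↦ ?_⟩
  set L := (M - 1) / D with hL
  set f : ℕ → ℝ := fun n ↦ μ.real (A ∩ ⋂ i, (T i)^[n] ⁻¹' A) with hf
  have hterm : ∀ m ∈ Icc 1 L, c ≤ ∑ d ∈ Icc 1 D, f (m * d) := by
    intro m _
    have := h α μ (fun i ↦ (T i)^[m]) (fun i ↦ (hT i).iterate m)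
      (fun i j ↦ ((hcomm i j).iterate_left m).iterate_right m) A hA hδA
    simpa only [hf, ← iterate_mul] using this
  have hcol : ∀ d ∈ Icc 1 D, ∑ m ∈ Icc 1 L, f (m * d) ≤ ∑ n ∈ range M, f n := by
    intro d hd
    obtain ⟨hd1, hd2⟩ := Finset.mem_Icc.1 hd
    rw [← sum_image (f := f) (g := fun m ↦ m * d) fun a _ b _ hab ↦
      Nat.eq_of_mul_eq_mul_right hd1 hab]
    refine sum_le_sum_of_subset_of_nonneg (fun n hn ↦ ?_) fun n _ _ ↦ measureReal_nonneg
    obtain ⟨m, hm, rfl⟩ := mem_image.1 hn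
    have h1 : m * d ≤ L * D := Nat.mul_le_mul (Finset.mem_Icc.1 hm).2 hd2
    have h2 : L * D ≤ M - 1 := Nat.div_mul_le_self _ _
    exact mem_range.2 (by omega)
  have h1 : (L : ℝ) * c ≤ (D : ℝ) * ∑ n ∈ range M, f n := by
    calc (L : ℝ) * c = ∑ _m ∈ Icc 1 L, c := by simp
      _ ≤ ∑ m ∈ Icc 1 L, ∑ d ∈ Icc 1 D, f (m * d) := sum_le_sum hterm
      _ = ∑ d ∈ Icc 1 D, ∑ m ∈ Icc 1 L, f (m * d) := sum_comm
      _ ≤ ∑ _d ∈ Icc 1 D, ∑ n ∈ range M, f n := sum_le_sum hcol
      _ = _ := by simp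
  have h2 : (M : ℝ) ≤ 2 * D * L := by
    have h3 := Nat.div_add_mod (M - 1) D
    have h4 := Nat.mod_lt (M - 1) (show D > 0 by omega)
    have h5 : M ≤ 2 * D * L := by
      have h6 : M ≤ 2 * (D * L) := by rw [hL]; omega
      linarith
    exact_mod_cast h5
  rw [div_mul_eq_mul_div, div_le_iff₀ (by positivity)]
  calc c * (M : ℝ) ≤ c * (2 * D * L) := by gcongr
    _ = 2 * D * (L * c) := by ring
    _ ≤ 2 * D * ((D : ℝ) * ∑ n ∈ range M, f n) := by gcongr
    _ = _ := by ring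

theorem liminf_recurrence_pos {α : Type u} [MeasurableSpace α] (μ : Measure α)
    [IsProbabilityMeasure μ] {r : ℕ} (T : Fin r → α → α) (hT : ∀ i, MeasurePreserving (T i) μ μ)
    (hcomm : ∀ i j, Function.Commute (T i) (T j)) {A : Set α} (hA : MeasurableSet A)
    (hpos : 0 < μ A) :
    0 < liminf (fun M : ℕ ↦
      (∑ n ∈ range M, μ.real (A ∩ ⋂ i, (T i)^[n] ⁻¹' A)) / M) atTop := by
  have hδ : 0 < μ.real A := ENNReal.toReal_pos hpos.ne' (measure_ne_top _ _)
  obtain ⟨c, hc, M₀, h⟩ := exists_average_recurrence.{u} r hδ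
  refine hc.trans_le (le_liminf_of_le ?_ ?_)
  · refine IsBoundedUnder.isCoboundedUnder_ge
      ⟨1, eventually_map.2 (Eventually.of_forall fun M ↦ ?_)⟩
    refine div_le_one_of_le₀ ?_ (Nat.cast_nonneg M)
    calc ∑ n ∈ range M, μ.real (A ∩ ⋂ i, (T i)^[n] ⁻¹' A) ≤ ∑ _n ∈ range M, (1 : ℝ) :=
          sum_le_sum fun n _ ↦ measureReal_le_one
      _ = M := by simp
  · filter_upwards [eventually_ge_atTop (max M₀ 1)] with M hM
    rw [le_div_iff₀ (by exact_mod_cast lt_of_lt_of_le one_pos (le_of_max_le_right hM))]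
    exact h α μ T hT hcomm A hA le_rfl M (le_of_max_le_left hM)

theorem exists_recurrence_pos {α : Type u} [MeasurableSpace α] (μ : Measure α)
    [IsProbabilityMeasure μ] {r : ℕ} (T : Fin r → α → α) (hT : ∀ i, MeasurePreserving (T i) μ μ)
    (hcomm : ∀ i j, Function.Commute (T i) (T j)) {A : Set α} (hA : MeasurableSet A)
    (hpos : 0 < μ A) : ∃ n, 0 < n ∧ 0 < μ (A ∩ ⋂ i, (T i)^[n] ⁻¹' A) := by
  have hδ : 0 < μ.real A := ENNReal.toReal_pos hpos.ne' (measure_ne_top _ _)
  obtain ⟨D, c, hc, -, h⟩ := exists_sum_recurrence.{u} r hδ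
  by_contra hall
  push Not at hall
  have h1 := h α μ T hT hcomm A hA le_rfl
  rw [sum_eq_zero fun d hd ↦ by
    rw [measureReal_def, nonpos_iff_eq_zero.1 (hall d (Finset.mem_Icc.1 hd).1),
      ENNReal.toReal_zero]] at h1
  exact absurd h1 (not_le.2 hc)

end FA.MultipleRecurrence
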